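/-
S29 row, layer M, sub-layer M4b — lemma PROOT (helper89), used by piece K4-UNIQ.

`exists_coeffMap_eq_of_pow` : let `ι : K →+* L` be a homomorphism of fields, `K` algebraically
closed, `p` a natural number invertible in `K`.  If the `p`-th power of a Laurent series `b` over
`L` has all its coefficients in `ι K`, then so has `b`:  `b ^ p = coeffMap ι w → ∃ v, coeffMap ι v = b`.

Proof: reduce to power series with nonzero constant term; the constant term is a `p`-th root of an
element of `ι K`, hence in `ι K`; then induction on the index, comparing the coefficients of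
`(P + X^m R)^p = P^p + p P^(p-1) X^m R + k X^(2m) R^2`.
Mathlib + Prelude `coeffMap` only.
-/
import Mathlib
import Fermat.Prelude.Def_ModularCurve_LaurentCoeff

set_option autoImplicit false

noncomputable section

namespace Fermat.Agent.S29.M4b.H89.PRoot

open PowerSeries ModularCurve

section PS

variable {L : Type*} [Field L]

/-- Power series all of whose coefficients lie in a subfield. -/
def coeffSubring (S : Subfield L) : Subring (PowerSeries L) where
  carrier := {B | ∀ n, PowerSeries.coeff n B ∈ S}
  mul_mem' := by
    intro B C hB hC n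
    rw [PowerSeries.coeff_mul]
    exact S.sum_mem fun x _ => S.mul_mem (hB _) (hC _)
  one_mem' := by
    intro n
    rw [PowerSeries.coeff_one]
    split_ifs
    · exact S.one_mem
    · exact S.zero_mem
  add_mem' := by
    intro B C hB hC n
    rw [map_add]
    exact S.add_mem (hB _) (hC _)
  zero_mem' := by
    intro n
    rw [map_zero]
    exact S.zero_mem
  neg_mem' := by
    intro B hB n
    rw [map_neg]
    exact S.neg_mem (hB _)

theorem mem_coeffSubring {S : Subfield L} {B : PowerSeries L} :
    B ∈ coeffSubring S ↔ ∀ n, PowerSeries.coeff n B ∈ S := Iff.rfl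

/-- The key induction, for power series with nonzero constant coefficient. -/
theorem mem_coeffSubring_of_pow (S : Subfield L) {p : ℕ} (hp : (p : L) ≠ 0)
    (hroot : ∀ x : L, x ^ p ∈ S → x ∈ S) (B : PowerSeries L)
    (hB0 : PowerSeries.coeff 0 B ≠ 0) (hBp : B ^ p ∈ coeffSubring S) :
    B ∈ coeffSubring S := by
  have hp0 : p ≠ 0 := by
    rintro rfl
    exact hp (by simp)
  -- constant coefficient
  have h0 : PowerSeries.coeff 0 B ∈ S := by
    apply hroot
    have := hBp 0
    rwa [PowerSeries.coeff_zero_eq_constantCoeff, map_pow,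
      ← PowerSeries.coeff_zero_eq_constantCoeff] at this
  intro m
  induction m using Nat.strong_induction_on with
  | _ m ih =>
    rcases Nat.eq_zero_or_pos m with rfl | hm
    · exact h0
    -- decomposition `B = P + X^m * R`
    set P : PowerSeries L := ((PowerSeries.trunc m B : Polynomial L) : PowerSeries L) with hP
    set R : PowerSeries L := PowerSeries.mk fun i => PowerSeries.coeff (i + m) B with hR
    have hdec : B = P + PowerSeries.X ^ m * R := by
      rw [add_comm]
      exact PowerSeries.eq_X_pow_mul_shift_add_trunc m B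
    have hPmem : P ∈ coeffSubring S := by
      intro n
      rw [hP, Polynomial.coeff_coe, PowerSeries.coeff_trunc]
      split_ifs with hn
      · exact ih n hn
      · exact S.zero_mem
    have hP0 : PowerSeries.coeff 0 P = PowerSeries.coeff 0 B := by
      rw [hP, Polynomial.coeff_coe, PowerSeries.coeff_trunc, if_pos hm]
    have hR0 : PowerSeries.coeff 0 R = PowerSeries.coeff m B := by
      rw [hR, PowerSeries.coeff_mk, zero_add]
    obtain ⟨k, hk⟩ := Polynomial.powAddExpansion P (PowerSeries.X ^ m * R) p
    have hexp : PowerSeries.coeff m (B ^ p)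
        = PowerSeries.coeff m (P ^ p)
          + (p : L) * (PowerSeries.coeff 0 B) ^ (p - 1) * PowerSeries.coeff m B := by
      have e1 : B ^ p = P ^ p + PowerSeries.X ^ m * ((p : PowerSeries L) * P ^ (p - 1) * R)
          + PowerSeries.X ^ (2 * m) * (k * R ^ 2) := by
        conv_lhs => rw [hdec]
        rw [hk]
        ring
      rw [e1, map_add, map_add, PowerSeries.coeff_X_pow_mul', PowerSeries.coeff_X_pow_mul',
        if_pos le_rfl, if_neg (by omega), add_zero, Nat.sub_self]
      congr 1
      rw [PowerSeries.coeff_zero_eq_constantCoeff, map_mul, map_mul, map_pow, map_natCast,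
        ← PowerSeries.coeff_zero_eq_constantCoeff, hP0, hR0]
    have hmem : (p : L) * (PowerSeries.coeff 0 B) ^ (p - 1) * PowerSeries.coeff m B ∈ S := by
      have h1 : PowerSeries.coeff m (P ^ p) ∈ S := (coeffSubring S).pow_mem hPmem p m
      have h2 := hBp m
      rw [hexp] at h2
      have := S.sub_mem h2 h1
      rwa [add_sub_cancel_left] at this
    have hunit : (p : L) * (PowerSeries.coeff 0 B) ^ (p - 1) ∈ S :=
      S.mul_mem (natCast_mem S p) (S.pow_mem h0 _)
    have hne : (p : L) * (PowerSeries.coeff 0 B) ^ (p - 1) ≠ 0 :=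
      mul_ne_zero hp (pow_ne_zero _ hB0)
    have := S.mul_mem (S.inv_mem hunit) hmem
    rwa [← mul_assoc, inv_mul_cancel₀ hne, one_mul] at this

end PS

section Laurent

variable {K L : Type*} [Field K] [Field L]

/-- Laurent series version: if all coefficients of `b ^ p` lie in `S`, so do those of `b`. -/
theorem laurent_coeff_mem_of_pow (S : Subfield L) {p : ℕ} (hp : (p : L) ≠ 0)
    (hroot : ∀ x : L, x ^ p ∈ S → x ∈ S) (b : LaurentSeries L)
    (hbp : ∀ n, (b ^ p).coeff n ∈ S) : ∀ n, b.coeff n ∈ S := by
  by_cases hb : b = 0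
  · intro n
    rw [hb, HahnSeries.coeff_zero]
    exact S.zero_mem
  set B := b.powerSeriesPart with hBdef
  have hbB : HahnSeries.single b.order (1 : L) * HahnSeries.ofPowerSeries ℤ L B = b :=
    LaurentSeries.single_order_mul_powerSeriesPart b
  have hB0 : PowerSeries.coeff 0 B ≠ 0 := by
    rw [hBdef, LaurentSeries.powerSeriesPart_coeff]
    simpa using (HahnSeries.coeff_order_eq_zero (x := b)).not.2 hb
  have hBp : B ^ p ∈ coeffSubring S := by
    intro n
    have e : b ^ p = HahnSeries.single (p • b.order) (1 : L)
        * HahnSeries.ofPowerSeries ℤ L (B ^ p) := by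
      conv_lhs => rw [← hbB]
      rw [mul_pow, HahnSeries.single_pow, one_pow, map_pow]
    have h2 := hbp ((n : ℤ) + p • b.order)
    rw [e, HahnSeries.coeff_single_mul_add, one_mul, HahnSeries.ofPowerSeries_apply_coeff] at h2
    exact h2
  have hB := mem_coeffSubring_of_pow S hp hroot B hB0 hBp
  intro n
  by_cases hn : b.order ≤ n
  · obtain ⟨k, hk⟩ := Int.le.dest hn
    have := hB k
    rw [hBdef, LaurentSeries.powerSeriesPart_coeff, hk] at this
    exact this
  · rw [HahnSeries.coeff_eq_zero_of_lt_order (not_le.1 hn)]
    exact S.zero_mem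

/-- A Laurent series with coefficients in the range of `ι` is in the range of `coeffMap ι`. -/
theorem exists_coeffMap_eq_of_coeff_mem (ι : K →+* L) (b : LaurentSeries L)
    (hb : ∀ n, b.coeff n ∈ ι.fieldRange) : ∃ v : LaurentSeries K, coeffMap ι v = b := by
  classical
  have hex : ∀ n, ∃ a : K, ι a = b.coeff n := fun n => RingHom.mem_fieldRange.1 (hb n)
  let g : ℤ → K := fun n => if b.coeff n = 0 then 0 else Classical.choose (hex n)
  have hg : ∀ n, ι (g n) = b.coeff n := by
    intro n
    by_cases h0 : b.coeff n = 0
    · simp only [g, if_pos h0, map_zero, h0]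
    · simp only [g, if_neg h0]
      exact Classical.choose_spec (hex n)
  have hsupp : Function.support g ⊆ b.support := by
    intro n hn
    rw [Function.mem_support] at hn
    rw [HahnSeries.mem_support]
    intro h0
    apply hn
    simp only [g, if_pos h0]
  refine ⟨⟨g, b.isPWO_support.mono hsupp⟩, ?_⟩
  ext n
  rw [coeffMap_coeff]
  exact hg n

/-- **PROOT**: a Laurent series over `L` whose `p`-th power has coefficients in the algebraically
closed subfield `ι K` (with `p` invertible in `K`) has coefficients in `ι K`. -/
theorem exists_coeffMap_eq_of_pow [IsAlgClosed K] (ι : K →+* L) {p : ℕ} (hp : (p : K) ≠ 0)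
    (b : LaurentSeries L) (w : LaurentSeries K) (h : b ^ p = coeffMap ι w) :
    ∃ v : LaurentSeries K, coeffMap ι v = b := by
  have hp0 : p ≠ 0 := by
    rintro rfl
    exact hp (by simp)
  have hpL : (p : L) ≠ 0 := by
    have := (map_ne_zero ι).2 hp
    rwa [map_natCast] at this
  apply exists_coeffMap_eq_of_coeff_mem
  apply laurent_coeff_mem_of_pow ι.fieldRange hpL
  · intro x hx
    obtain ⟨c, hc⟩ := RingHom.mem_fieldRange.1 hx
    let _ : Algebra K L := ι.toAlgebra
    have hint : IsIntegral K x := by
      refine ⟨Polynomial.X ^ p - Polynomial.C c, Polynomial.monic_X_pow_sub_C c hp0, ?_⟩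
      rw [Polynomial.eval₂_sub, Polynomial.eval₂_pow, Polynomial.eval₂_X, Polynomial.eval₂_C]
      show x ^ p - ι c = 0
      rw [hc, sub_self]
    have hdeg := IsAlgClosed.degree_eq_one_of_irreducible K (minpoly.irreducible hint)
    have := minpoly.mem_range_of_degree_eq_one K x hdeg
    obtain ⟨a, ha⟩ := this
    exact RingHom.mem_fieldRange.2 ⟨a, ha⟩
  · intro n
    rw [h, coeffMap_coeff]
    exact RingHom.mem_fieldRange.2 ⟨_, rfl⟩

end Laurent

end Fermat.Agent.S29.M4b.H89.PRoot
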