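/-
S29 row, layer M, sub-layer M4b — PIECE `K4-UNIQ` (helper89): the Kummer class of a character is
unique.  Exact statement of `M4b/Skeleton.lean` (helper822); `pieceUniq : PieceUniq N p` is the
shape of `M4b/Top.lean` (helper269).

Proof: for two data `(f, t, U)`, `(f', t', U')` of the same character `c`, the function
`V := U * U' ^ (p-1)` is `Γ₀(N)`-invariant, holomorphic, and good (its `p`-th power is), so its
`q`-expansion `b` lies in `F_ℂ` (MERO, `H882`).  `b ^ p` is the image of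
`w = (f t^p) (f' t'^p)^(p-1) ∈ FF N`, so `b = ι v` with `v ∈ ℚ̄((q))` (PROOT), and `v ∈ FF N`
(`H882` (C)).  Hence `f * f' ^ (p-1)` is a `p`-th power in `FF N`, so `x + (p-1) x' = 0`, and
`p x' = 0` gives `x = x'`.
-/
import Fermat.Agent.S29.M4b.Top
import Fermat.Agent.S29.M4b.H89.PRoot
import Fermat.Agent.S29.H882.Inter

set_option autoImplicit false

noncomputable section

open ModularCurve AlgebraicCurve CongruenceSubgroup UpperHalfPlane
open scoped MatrixGroups Manifold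

namespace Fermat.Agent.S29.M4b.H89

open Fermat.Agent.S24 Fermat.Agent.S29 Fermat.Agent.S29.M4b

section K4Uniq

variable (N : ℕ) [NeZero N] (p : ℕ) [NeZero p]

theorem K4Uniq_zetaP_pow : zetaP p ^ p = 1 := by
  have hp : (p : ℂ) ≠ 0 := Nat.cast_ne_zero.2 (NeZero.ne p)
  rw [zetaP, ← Complex.exp_nat_mul]
  have : (p : ℂ) * (2 * Real.pi * Complex.I / p) = 2 * Real.pi * Complex.I := by
    field_simp
  rw [this, Complex.exp_two_pi_mul_I]

/-- `p`-th root of a growth bound. -/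
theorem K4Uniq_expGrowth_of_pow {f : ℍ → ℂ}
    (hf : H648.ExpGrowth (fun τ => f τ ^ p)) : H648.ExpGrowth f := by
  obtain ⟨C, m, h⟩ := hf
  refine ⟨1 + |C|, m, fun τ hτ => ?_⟩
  have h1 := h τ hτ
  rw [norm_pow] at h1
  have hexp : 1 ≤ Real.exp (2 * Real.pi * m * τ.im) := by
    apply Real.one_le_exp
    have := Real.pi_pos
    have := τ.im_pos
    positivity
  have hpos : 0 < p := Nat.pos_of_ne_zero (NeZero.ne p)
  by_cases hle : ‖f τ‖ ≤ 1
  · calc ‖f τ‖ ≤ 1 := hle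
      _ ≤ 1 * Real.exp (2 * Real.pi * m * τ.im) := by rw [one_mul]; exact hexp
      _ ≤ (1 + |C|) * Real.exp (2 * Real.pi * m * τ.im) := by
          apply mul_le_mul_of_nonneg_right _ (Real.exp_pos _).le
          linarith [abs_nonneg C]
  · rw [not_le] at hle
    calc ‖f τ‖ ≤ ‖f τ‖ ^ p := le_self_pow₀ hle.le (NeZero.ne p)
      _ ≤ C * Real.exp (2 * Real.pi * m * τ.im) := h1
      _ ≤ (1 + |C|) * Real.exp (2 * Real.pi * m * τ.im) := by
          apply mul_le_mul_of_nonneg_right _ (Real.exp_pos _).le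
          linarith [le_abs_self C]


omit [NeZero N] in
/-- `V = U * U' ^ (p-1)` is invariant under `Γ₀(N)` when `U`, `U'` have the same character. -/
theorem K4Uniq_invariant {c : G0 N → ZMod p} {U U' : ℍ → ℂ} (hU : HasChar N p c U)
    (hU' : HasChar N p c U') (γ : SL(2, ℤ)) (hγ : γ ∈ Gamma0 N) (τ : ℍ) :
    U (γ • τ) * U' (γ • τ) ^ (p - 1) = U τ * U' τ ^ (p - 1) := by
  have h1 := hU ⟨γ, hγ⟩ τ
  have h2 := hU' ⟨γ, hγ⟩ τ
  simp only at h1 h2
  rw [h1, h2, mul_pow, ← pow_mul]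
  have hp : 1 ≤ p := Nat.one_le_iff_ne_zero.2 (NeZero.ne p)
  have e : zetaP p ^ (c ⟨γ, hγ⟩).val * U τ * (zetaP p ^ ((c ⟨γ, hγ⟩).val * (p - 1)) * U' τ ^ (p - 1))
      = zetaP p ^ ((c ⟨γ, hγ⟩).val * p) * (U τ * U' τ ^ (p - 1)) := by
    have : (c ⟨γ, hγ⟩).val * p = (c ⟨γ, hγ⟩).val + (c ⟨γ, hγ⟩).val * (p - 1) := by
      rw [Nat.mul_sub_one, Nat.add_sub_cancel' (Nat.le_mul_of_pos_right _ hp)]
    rw [this, pow_add]
    ring
  rw [e, mul_comm (c ⟨γ, hγ⟩).val p, pow_mul, K4Uniq_zetaP_pow, one_pow, one_mul]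

omit [NeZero N] in
/-- `V = U * U' ^ (p-1)` is a good function. -/
theorem K4Uniq_mem_goodRing {c : G0 N → ZMod p} {U U' : ℍ → ℂ} (hU : IsTwisted N p c U)
    (hU' : IsTwisted N p c U') : (fun τ => U τ * U' τ ^ (p - 1)) ∈ H648.goodRing N := by
  have hp : 1 ≤ p := Nat.one_le_iff_ne_zero.2 (NeZero.ne p)
  refine ⟨hU.mdiff.mul (hU'.mdiff.pow (p - 1)), fun γ hγ τ => ?_, fun g => ?_⟩
  · exact K4Uniq_invariant N p hU.hasChar hU'.hasChar γ hγ τ
  · apply K4Uniq_expGrowth_of_pow p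
    have h1 : (fun τ => U τ ^ p) * (fun τ => U' τ ^ p) ^ (p - 1) ∈ H648.goodRing N :=
      (H648.goodRing N).mul_mem hU.pow_mem ((H648.goodRing N).pow_mem hU'.pow_mem _)
    have h2 := h1.2.2 g
    have e : (fun τ : ℍ => (U (g • τ) * U' (g • τ) ^ (p - 1)) ^ p)
        = fun τ => ((fun τ => U τ ^ p) * (fun τ => U' τ ^ p) ^ (p - 1)) (g • τ) := by
      funext τ
      simp only [Pi.mul_apply, Pi.pow_apply]
      ring
    rw [e]
    exact h2


/-- Kummer classes of powers. -/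
theorem K4Uniq_kummer_pow {K F : Type*} [Field K] [Field F] [Algebra K F] {n : ℤ} {f : F}
    {x : Pic0 K F} (hx : H455.IsKummerClass n f x) (k : ℕ) :
    H455.IsKummerClass n (f ^ k) (k • x) := by
  induction k with
  | zero =>
    rw [pow_zero, zero_nsmul]
    exact H455.IsKummerClass.zero
  | succ k ih =>
    rw [pow_succ, succ_nsmul]
    exact ih.add hx

theorem K4Uniq_coeffMap_injective {K L : Type*} [Field K] [Field L] (ι : K →+* L) :
    Function.Injective (coeffMap ι) := by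
  intro a b hab
  ext n
  have := congrArg (fun z : LaurentSeries L => z.coeff n) hab
  simp only [coeffMap_coeff] at this
  exact ι.injective this

/-- PIECE `K4-UNIQ`: the Kummer class of a character is unique. -/
theorem isKum_unique {c : G0 N → ZMod p} {x x' : JZero N}
    (h : IsKum N p c x) (h' : IsKum N p c x') : x = x' := by
  obtain ⟨f, t, U, ht, hx, hU, hR⟩ := h
  obtain ⟨f', t', U', ht', hx', hU', hR'⟩ := h'
  have hp1 : 1 ≤ p := Nat.one_le_iff_ne_zero.2 (NeZero.ne p)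
  have hpK : ((p : ℕ) : Kbar) ≠ 0 := Nat.cast_ne_zero.2 (NeZero.ne p)
  -- the invariant function `V`
  have hV := K4Uniq_mem_goodRing N p hU hU'
  have hVq := H882.hasQExp_of_mem_goodRing hV
  have hUq : H708.HasQExp 1 (fun τ => U τ ^ p)
      (coeffMap Deg457.iotaC ((f * t ^ p : FF N) : LaurentSeries Kbar)) :=
    ⟨H882.isMerInf_of_mem_goodRing hR.1, hR.2⟩
  have hU'q : H708.HasQExp 1 (fun τ => U' τ ^ p)
      (coeffMap Deg457.iotaC ((f' * t' ^ p : FF N) : LaurentSeries Kbar)) :=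
    ⟨H882.isMerInf_of_mem_goodRing hR'.1, hR'.2⟩
  have hprod := hUq.mul (hU'q.pow (p - 1))
  have hfun : (fun τ => U τ * U' τ ^ (p - 1)) ^ p
      = (fun τ => U τ ^ p) * (fun τ => U' τ ^ p) ^ (p - 1) := by
    funext τ
    simp only [Pi.pow_apply, Pi.mul_apply]
    ring
  have hVp := hVq.pow p
  rw [hfun] at hVp
  have hbw := hVp.unique hprod
  have hbw' : H708.qexpFun 1 (fun τ => U τ * U' τ ^ (p - 1)) ^ p
      = coeffMap Deg457.iotaC
        ((((f * t ^ p) * (f' * t' ^ p) ^ (p - 1) : FF N)) : LaurentSeries Kbar) := by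
    rw [hbw]
    push_cast
    simp only [map_mul, map_pow]
  obtain ⟨v, hv⟩ := PRoot.exists_coeffMap_eq_of_pow Deg457.iotaC hpK _ _ hbw'
  have hbFC := H882.qexpFun_mem_FC hV
  have hvFF : v ∈ modularFunctionFieldBar N :=
    H882.mem_laurentBaseChange_of_coeffMap_mem Deg457.iotaC _ (by rw [hv]; exact hbFC)
  have hvp : v ^ p = ((((f * t ^ p) * (f' * t' ^ p) ^ (p - 1) : FF N)) : LaurentSeries Kbar) := by
    apply K4Uniq_coeffMap_injective Deg457.iotaC
    rw [map_pow, hv, hbw']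
  have hvFp : (⟨v, hvFF⟩ : FF N) ^ p = (f * t ^ p) * (f' * t' ^ p) ^ (p - 1) := by
    apply Subtype.ext
    rw [← hvp]
    rfl
  -- the `p`-th root of `f * f' ^ (p-1)`
  have htt : t * t' ^ (p - 1) ≠ 0 := mul_ne_zero ht (pow_ne_zero _ ht')
  have hg : f * f' ^ (p - 1) = ((⟨v, hvFF⟩ : FF N) / (t * t' ^ (p - 1))) ^ p := by
    rw [div_pow, hvFp, eq_div_iff (pow_ne_zero _ htt)]
    ring
  have hf := hx.ne_zero
  have hf' := hx'.ne_zero
  have hg0 : (⟨v, hvFF⟩ : FF N) / (t * t' ^ (p - 1)) ≠ 0 := by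
    intro h0
    rw [h0, zero_pow (NeZero.ne p)] at hg
    exact mul_ne_zero hf (pow_ne_zero _ hf') hg
  have hk : H455.IsKummerClass (p : ℤ) (f * f' ^ (p - 1)) (x + (p - 1) • x') :=
    hx.add (K4Uniq_kummer_pow hx' (p - 1))
  have hpz : ((p : ℕ) : ℤ) ≠ 0 := Int.natCast_ne_zero.2 (NeZero.ne p)
  have hzero : x + (p - 1) • x' = 0 :=
    (hk.eq_zero_iff hpz).2 ⟨_, hg0, fun w => by
      rw [hg, ← zpow_natCast, Place.ord_zpow]⟩
  have hpx' : (p : ℤ) • x' = 0 := hx'.zsmul_eq_zero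
  have hpx'' : p • x' = 0 := by
    rw [← natCast_zsmul]; exact hpx'
  have e : p • x' = (p - 1) • x' + x' := by
    conv_lhs => rw [← Nat.sub_add_cancel hp1]
    rw [succ_nsmul]
  rw [e] at hpx''
  -- `x + a = 0` and `a + x' = 0`
  calc x = x + ((p - 1) • x' + x') := by rw [hpx'', add_zero]
    _ = (x + (p - 1) • x') + x' := by rw [add_assoc]
    _ = x' := by rw [hzero, zero_add]

/-- PIECE `K4-UNIQ` in the shape of `M4b/Top.lean`. -/
theorem pieceUniq : PieceUniq N p := fun h h' => isKum_unique N p h h'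

end K4Uniq

end Fermat.Agent.S29.M4b.H89
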